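import Fermat.Agent.H18S.Tau

/-!
# Structure of an irreducible flat residual representation
-/

set_option autoImplicit false
set_option linter.unusedSectionVars false

namespace Fermat.Agent.H18S

open Matrix Fermat.Agent.CC Fermat.Agent.TW NVal

variable {A : ValuationSubring Qb} {p : ℕ} {w : Qb → ℝ} {k : Type*} [Field k]
  {rb : GQ →* Mt k}

theorem swap_entry (Q Q' X : Mt k) (i j : Fin 2) :
    (Q'.submatrix (Equiv.swap 0 1) id * X * Q.submatrix id (Equiv.swap 0 1)) i j =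
      (Q' * X * Q) (Equiv.swap 0 1 i) (Equiv.swap 0 1 j) := by
  simp only [Matrix.mul_apply, Matrix.submatrix_apply, id]

/-- **the residual structure in the supersingular case** -/
theorem ss_residual [Finite k] [CharP k p] (P : PL p A w) (hp2 : p ≠ 2) {ζ : Qb}
    {x : GQ → ZMod p} (C : CY p ζ x) (hU : IsOpen (rb.ker : Set GQ))
    (hdet : ∀ s, (rb s).det = ((x s).val : k))
    (hsplit : ∀ s, ∃ a b : k,
      (rb s).charpoly = (Polynomial.X - Polynomial.C a) * (Polynomial.X - Polynomial.C b))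
    (hirr : ∀ v : Fin 2 → k, v ≠ 0 → ∃ g ∈ A.decompositionSubgroup ℚ, ∀ c : k,
      (rb g).mulVec v ≠ c • v)
    (hLH : HasLH A (actK A rb)) {π : Qb} (hπ : π ^ (p ^ 2 - 1) = p) :
    ∃ (Q Q' : Mt k) (al : GQ → k) (K : Subfield k) (τ : K →+* IsLocalRing.ResidueField A)
      (hal : ∀ s ∈ A.inertiaSubgroupIn ℚ, al s ∈ K), Q * Q' = 1 ∧ Nat.card K = p ^ 2 ∧
      (∀ s (hs : s ∈ A.inertiaSubgroupIn ℚ), τ ⟨al s, hal s hs⟩ = rsd A (s π / π)) ∧
      (∀ s ∈ A.inertiaSubgroupIn ℚ, Q' * rb s * Q = Matrix.diagonal ![al s, al s ^ p]) ∧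
      ∀ φ, A.IsFrobeniusAt φ p →
        (Q' * rb φ * Q) 0 0 = 0 ∧ (Q' * rb φ * Q) 1 1 = 0 := by
  obtain ⟨Q, Q', a, hS⟩ := exists_SSD P hU hsplit hirr hLH
  have hinv' : Q' * Q = 1 := mul_eq_one_comm.1 hS.inv
  have hm0 := tame_level P.prime
  have hmul : ∀ X : Mt k, X * Q = Q * (Q' * X * Q) := by
    intro X
    rw [← mul_assoc, ← mul_assoc, hS.inv, one_mul]
  have hav : ∀ s ∈ A.inertiaSubgroupIn ℚ, rb s *ᵥ (fun i => Q i 0) = a s • (fun i => Q i 0) := by
    intro s hs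
    funext i
    have h1 : (rb s * Q) i 0 = Q i 0 * a s := by
      rw [hmul, hS.diag s hs, Matrix.mul_diagonal]
      rfl
    rw [Pi.smul_apply, smul_eq_mul, mul_comm, ← h1]
    rfl
  have hv : (fun i => Q i 0) ≠ 0 := by
    intro h0
    have h1 := congrFun (congrFun hinv' 0) 0
    rw [Matrix.mul_apply, Fin.sum_univ_two, Matrix.one_apply_eq] at h1
    have h2 : Q 0 0 = 0 := congrFun h0 0
    have h3 : Q 1 0 = 0 := congrFun h0 1
    rw [h2, h3, mul_zero, mul_zero, add_zero] at h1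
    exact zero_ne_one h1
  have htriv : ∀ s ∈ A.inertiaSubgroupIn ℚ, a s = 1 → rb s = 1 := by
    intro s hs h1
    have h2 := hS.diag s hs
    have h3 : rb s = Q * (Q' * rb s * Q) * Q' := by
      rw [← hmul, mul_assoc, hS.inv, mul_one]
    have h4 : (Matrix.diagonal ![(1 : k), 1 ^ p]) = 1 := by
      rw [one_pow, ← Matrix.diagonal_one]
      congr 1
      funext i
      fin_cases i <;> rfl
    rw [h3, h2, h1, h4, mul_one, hS.inv]
  have hdet' : ∀ s ∈ A.inertiaSubgroupIn ℚ, a s ^ (p + 1) = ((x s).val : k) := by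
    intro s hs
    have h1 := det_conj_matrix (X := rb s) hS.inv
    rw [hS.diag s hs, hdet, Matrix.det_diagonal, Fin.prod_univ_two] at h1
    rw [← h1, pow_succ, mul_comm]
    rfl
  obtain ⟨K, τ, m, hal, hK, hm, hτ⟩ := exists_tau P hp2 C hU hLH hv htriv hav hS.pow hS.ne hdet'
    hπ
  rcases hm with rfl | rfl
  · exact ⟨Q, Q', a, K, τ, hal, hS.inv, hK, fun s hs => by rw [hτ s hs, pow_one], hS.diag, hS.anti⟩
  · refine ⟨Q.submatrix id (Equiv.swap 0 1), Q'.submatrix (Equiv.swap 0 1) id,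
      fun s => a s ^ m, K, τ, fun s hs => pow_mem (hal s hs) m, ?_, hK, fun s hs => ?_,
      fun s hs => ?_, fun φ hφ => ?_⟩
    · have := Matrix.submatrix_mul_equiv Q Q' id (Equiv.swap (0 : Fin 2) 1) id
      rw [this, hS.inv]
      exact Matrix.submatrix_id_id _
    · have h1 : (⟨a s ^ m, pow_mem (hal s hs) m⟩ : K) = ⟨a s, hal s hs⟩ ^ m := rfl
      have hte := P.theta_te hm0 hπ s
      have hbl := P.te_Bl hte
      rw [h1, map_pow, hτ s hs, ← P.rsd_pow hbl, ← P.rsd_pow (P.te_Bl (P.te_pow hte _)),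
        ← pow_mul]
      congr 1
      have h2 : m * m = (m ^ 2 - 1) + 1 := by
        have := Nat.one_le_pow 2 m P.prime.pos
        rw [Nat.sub_add_cancel this, pow_two]
      rw [h2, pow_succ, P.theta_pow hπ, one_mul]
    · ext i j
      rw [swap_entry, hS.diag s hs]
      have h2 := hS.pow s hs
      rw [pow_two, pow_mul] at h2
      fin_cases i <;> fin_cases j
      · change Matrix.diagonal ![a s, a s ^ m] 1 1 = Matrix.diagonal ![a s ^ m, (a s ^ m) ^ m] 0 0
        rw [Matrix.diagonal_apply_eq, Matrix.diagonal_apply_eq]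
        rfl
      · change Matrix.diagonal ![a s, a s ^ m] 1 0 = Matrix.diagonal ![a s ^ m, (a s ^ m) ^ m] 0 1
        rw [Matrix.diagonal_apply_ne _ one_ne_zero, Matrix.diagonal_apply_ne _ zero_ne_one]
      · change Matrix.diagonal ![a s, a s ^ m] 0 1 = Matrix.diagonal ![a s ^ m, (a s ^ m) ^ m] 1 0
        rw [Matrix.diagonal_apply_ne _ one_ne_zero, Matrix.diagonal_apply_ne _ zero_ne_one]
      · change Matrix.diagonal ![a s, a s ^ m] 0 0 = Matrix.diagonal ![a s ^ m, (a s ^ m) ^ m] 1 1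
        rw [Matrix.diagonal_apply_eq, Matrix.diagonal_apply_eq]
        exact h2.symm
    · rw [swap_entry, swap_entry]
      exact ⟨(hS.anti φ hφ).2, (hS.anti φ hφ).1⟩

end Fermat.Agent.H18S
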