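import Fermat.Agent.H18S.Wild

/-!
# Diagonalisation of inertia for an irreducible flat residual representation
-/

set_option autoImplicit false
set_option linter.unusedSectionVars false

namespace Fermat.Agent.H18S

open Matrix Fermat.Agent.CC Fermat.Agent.TW NVal

variable {A : ValuationSubring Qb} {p : ℕ} {w : Qb → ℝ} {k : Type*} [Field k]

/-- characters of inertia as unit valued functions -/
theorem exists_units_char {f : GQ → k} (hf1 : f 1 = 1)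
    (hf : ∀ σ ∈ A.inertiaSubgroupIn ℚ, ∀ τ ∈ A.inertiaSubgroupIn ℚ, f (σ * τ) = f σ * f τ) :
    ∃ ψ : GQ → kˣ, (∀ σ ∈ A.inertiaSubgroupIn ℚ, (ψ σ : k) = f σ) ∧
      ∀ σ ∈ A.inertiaSubgroupIn ℚ, ∀ τ ∈ A.inertiaSubgroupIn ℚ, ψ (σ * τ) = ψ σ * ψ τ := by
  classical
  have hne : ∀ σ ∈ A.inertiaSubgroupIn ℚ, f σ ≠ 0 := by
    intro σ hσ h0
    have := hf σ hσ σ⁻¹ (inv_mem hσ)
    rw [mul_inv_cancel, hf1, h0, zero_mul] at this
    exact one_ne_zero this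
  let ψ : GQ → kˣ := fun σ => if h : f σ ≠ 0 then Units.mk0 (f σ) h else 1
  have hψ : ∀ σ ∈ A.inertiaSubgroupIn ℚ, (ψ σ : k) = f σ := by
    intro σ hσ
    change ((if h : f σ ≠ 0 then Units.mk0 (f σ) h else 1 : kˣ) : k) = f σ
    rw [dif_pos (hne σ hσ), Units.val_mk0]
  refine ⟨ψ, hψ, fun σ hσ τ hτ => Units.ext ?_⟩
  rw [Units.val_mul, hψ _ (mul_mem hσ hτ), hψ _ hσ, hψ _ hτ, hf _ hσ _ hτ]

theorem tame_conj' [Finite k] [CharP k p] (P : PL p A w) {f : GQ → k} (hf1 : f 1 = 1)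
    (hf : ∀ σ ∈ A.inertiaSubgroupIn ℚ, ∀ τ ∈ A.inertiaSubgroupIn ℚ, f (σ * τ) = f σ * f τ)
    {U : Subgroup GQ} (hU : IsOpen (U : Set GQ))
    (hfU : ∀ σ ∈ A.inertiaSubgroupIn ℚ, σ ∈ U → f σ = 1) {φ : GQ}
    (hφ : A.IsFrobeniusAt φ p) {σ : GQ} (hσ : σ ∈ A.inertiaSubgroupIn ℚ) :
    f (φ * σ * φ⁻¹) = f σ ^ p := by
  obtain ⟨ψ, h1, h2⟩ := exists_units_char (A := A) hf1 hf
  have h3 := tame_conj P h2 hU (fun σ hσ hσU => Units.ext (by
    rw [h1 σ hσ, hfU σ hσ hσU, Units.val_one])) hφ hσ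
  have h4 := congrArg (fun u : kˣ => (u : k)) h3
  simp only [Units.val_pow_eq_pow_val] at h4
  rwa [h1 _ (TW.inertia_conj_mem hφ.1 hσ), h1 _ hσ] at h4

theorem char_trivial' [Finite k] (P : PL p A w) {f : GQ → k} (hf1 : f 1 = 1)
    (hf : ∀ σ ∈ A.inertiaSubgroupIn ℚ, ∀ τ ∈ A.inertiaSubgroupIn ℚ, f (σ * τ) = f σ * f τ)
    {U : Subgroup GQ} (hU : IsOpen (U : Set GQ))
    (hfU : ∀ σ ∈ A.inertiaSubgroupIn ℚ, σ ∈ U → f σ = 1) {m : ℕ} (hm : ¬ p ∣ m)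
    (hfm : ∀ σ ∈ A.inertiaSubgroupIn ℚ, f σ ^ m = 1) {π : Qb} (hπ : π ^ m = p) {σ : GQ}
    (hσ : σ ∈ Jt A π) : f σ = 1 := by
  obtain ⟨ψ, h1, h2⟩ := exists_units_char (A := A) hf1 hf
  have h3 := char_trivial_of_pow P h2 hU (fun σ hσ hσU => Units.ext (by
    rw [h1 σ hσ, hfU σ hσ hσU, Units.val_one])) hm (fun σ hσ => Units.ext (by
    rw [Units.val_pow_eq_pow_val, h1 σ hσ, hfm σ hσ, Units.val_one])) hπ hσ
  rw [← h1 σ hσ.1, h3, Units.val_one]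

theorem exists_eig {M : Mt k} {a b : k}
    (h : M.charpoly = (Polynomial.X - Polynomial.C a) * (Polynomial.X - Polynomial.C b)) :
    ∃ v : Fin 2 → k, v ≠ 0 ∧ M *ᵥ v = a • v := by
  have h1 : (Matrix.scalar (Fin 2) a - M).det = 0 := by
    rw [← Matrix.eval_charpoly, h, Polynomial.eval_mul, Polynomial.eval_sub, Polynomial.eval_X,
      Polynomial.eval_C, sub_self, zero_mul]
  obtain ⟨v, hv, hv0⟩ := Matrix.exists_mulVec_eq_zero_iff.2 h1
  refine ⟨v, hv, ?_⟩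
  rw [Matrix.sub_mulVec, sub_eq_zero] at hv0
  rw [← hv0]
  ext i
  simp [Matrix.scalar_apply, Matrix.mulVec_diagonal]

variable {rb : GQ →* Mt k}

/-- a common eigenvector -/
theorem exists_common {I : Set GQ}
    (hsplit : ∀ s, ∃ a b : k,
      (rb s).charpoly = (Polynomial.X - Polynomial.C a) * (Polynomial.X - Polynomial.C b))
    (hcomm : ∀ s ∈ I, ∀ t ∈ I, rb s * rb t = rb t * rb s) :
    ∃ v : Fin 2 → k, v ≠ 0 ∧ ∀ s ∈ I, ∃ c : k, rb s *ᵥ v = c • v := by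
  by_cases h : ∀ s ∈ I, ∃ c : k, rb s = c • (1 : Mt k)
  · refine ⟨Pi.single 0 1, fun h0 => ?_, fun s hs => ?_⟩
    · have := congrFun h0 0
      rw [Pi.single_eq_same] at this
      exact one_ne_zero this
    · obtain ⟨c, hc⟩ := h s hs
      exact ⟨c, by rw [hc, Matrix.smul_mulVec, Matrix.one_mulVec]⟩
  · push Not at h
    obtain ⟨s, hs, hsc⟩ := h
    obtain ⟨a, b, hab⟩ := hsplit s
    obtain ⟨v, hv, hv1⟩ := exists_eig hab
    refine ⟨v, hv, fun t ht => ?_⟩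
    by_contra hno
    push Not at hno
    refine hsc a (eq_scalar hv hno hv1 ?_)
    rw [Matrix.mulVec_mulVec, hcomm s hs t ht, ← Matrix.mulVec_mulVec, hv1, Matrix.mulVec_smul]

/-- lines stable under inertia and a Frobenius are stable under the decomposition group -/
theorem stable_line (P : PL p A w) (hU : IsOpen (rb.ker : Set GQ)) {v : Fin 2 → k}
    (hI : ∀ s ∈ A.inertiaSubgroupIn ℚ, ∃ c : k, rb s *ᵥ v = c • v) {φ : GQ}
    (hφ : A.IsFrobeniusAt φ p) (hφv : ∃ c : k, rb φ *ᵥ v = c • v) {g : GQ}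
    (hg : g ∈ A.decompositionSubgroup ℚ) : ∃ c : k, rb g *ᵥ v = c • v := by
  obtain ⟨n, σ, hσ, h, hh, -, rfl⟩ := exists_dec P.prime P.lies hφ hg (V := rb.ker)
    (inferInstance) (lev_isOpen_iff.2 hU)
  have h1 : rb h = 1 := hh
  obtain ⟨c, hc⟩ := hI σ hσ
  obtain ⟨d, hd⟩ := hφv
  have h2 : ∀ n : ℕ, rb (φ ^ n) *ᵥ v = d ^ n • v := by
    intro n
    induction n with
    | zero => rw [pow_zero, map_one, Matrix.one_mulVec, pow_zero, one_smul]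
    | succ n ih =>
      rw [pow_succ, map_mul, ← Matrix.mulVec_mulVec, hd, Matrix.mulVec_smul, ih, smul_smul,
        pow_succ, mul_comm]
  refine ⟨c * d ^ n, ?_⟩
  rw [map_mul, map_mul, h1, mul_one, ← Matrix.mulVec_mulVec, hc, Matrix.mulVec_smul, h2,
    smul_smul]

/-- the diagonal form -/
structure SSD (A : ValuationSubring Qb) (p : ℕ) (rb : GQ →* Mt k) (Q Q' : Mt k) (a : GQ → k) :
    Prop where
  inv : Q * Q' = 1
  diag : ∀ s ∈ A.inertiaSubgroupIn ℚ, Q' * rb s * Q = Matrix.diagonal ![a s, a s ^ p]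
  pow : ∀ s ∈ A.inertiaSubgroupIn ℚ, a s ^ (p ^ 2) = a s
  ne : ∃ s ∈ A.inertiaSubgroupIn ℚ, a s ^ p ≠ a s
  anti : ∀ φ, A.IsFrobeniusAt φ p → (Q' * rb φ * Q) 0 0 = 0 ∧ (Q' * rb φ * Q) 1 1 = 0

theorem conj_entry {Q Q' X : Mt k} (h : Q' * Q = 1) {i j : Fin 2} {c : k}
    (hX : X *ᵥ (fun a => Q a j) = c • (fun a => Q a i)) (l : Fin 2) :
    (Q' * X * Q) l j = c * (1 : Mt k) l i := by
  have h1 : (Q' * X * Q) l j = (Q' *ᵥ (X *ᵥ (fun a => Q a j))) l := by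
    rw [Matrix.mulVec_mulVec]
    rfl
  rw [h1, hX, Matrix.mulVec_smul, Pi.smul_apply, smul_eq_mul]
  congr 1
  rw [← h]
  rfl

theorem eig_cases {X : Mt k} {v1 v2 u : Fin 2 → k} (hv1 : v1 ≠ 0) (hv2 : ∀ a : k, v2 ≠ a • v1)
    {c1 c2 c : k} (h1 : X *ᵥ v1 = c1 • v1) (h2 : X *ᵥ v2 = c2 • v2) (hne : c1 ≠ c2)
    (hu : X *ᵥ u = c • u) : (∃ a : k, u = a • v1) ∨ ∃ a : k, u = a • v2 := by
  obtain ⟨a, b, rfl⟩ := exists_comb hv1 hv2 u
  rw [Matrix.mulVec_add, Matrix.mulVec_smul, Matrix.mulVec_smul, h1, h2, smul_add] at hu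
  have h3 : (a * c1 - c * a) • v1 + (b * c2 - c * b) • v2 = 0 := by
    rw [sub_smul, sub_smul, ← smul_smul, ← smul_smul, ← smul_smul, ← smul_smul,
      sub_add_sub_comm, hu, sub_self]
  obtain ⟨h4, h5⟩ := comb_inj hv1 hv2 h3
  by_cases ha : a = 0
  · right
    exact ⟨b, by rw [ha, zero_smul, zero_add]⟩
  · left
    refine ⟨a, ?_⟩
    by_cases hb : b = 0
    · rw [hb, zero_smul, add_zero]
    exfalso
    apply hne
    have h6 : c1 = c := by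
      have : a * (c1 - c) = 0 := by rw [← h4]; ring
      exact sub_eq_zero.1 ((mul_eq_zero.1 this).resolve_left ha)
    have h7 : c2 = c := by
      have : b * (c2 - c) = 0 := by rw [← h5]; ring
      exact sub_eq_zero.1 ((mul_eq_zero.1 this).resolve_left hb)
    rw [h6, h7]

/-- **diagonalisation** -/
theorem exists_SSD [Finite k] [CharP k p] (P : PL p A w) (hU : IsOpen (rb.ker : Set GQ))
    (hsplit : ∀ s, ∃ a b : k,
      (rb s).charpoly = (Polynomial.X - Polynomial.C a) * (Polynomial.X - Polynomial.C b))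
    (hirr : ∀ v : Fin 2 → k, v ≠ 0 → ∃ g ∈ A.decompositionSubgroup ℚ, ∀ c : k,
      (rb g).mulVec v ≠ c • v)
    (hLH : HasLH A (actK A rb)) : ∃ Q Q' a, SSD A p rb Q Q' a := by
  classical
  have hle := inertia_le_decomposition A
  obtain ⟨v1, hv1, hI1⟩ := exists_common (rb := rb) (I := (A.inertiaSubgroupIn ℚ : Set GQ)) hsplit
    (fun s hs t ht => rb_comm P hirr hLH hs ht)
  obtain ⟨g, hg, hv2⟩ := hirr v1 hv1
  obtain ⟨v2, hv2def⟩ : ∃ v2, v2 = rb g *ᵥ v1 := ⟨_, rfl⟩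
  rw [← hv2def] at hv2
  have hI2 : ∀ s ∈ A.inertiaSubgroupIn ℚ, ∃ c : k, rb s *ᵥ v2 = c • v2 := by
    intro s hs
    have h4 : g⁻¹ * s * g ∈ A.inertiaSubgroupIn ℚ := by
      have := TW.inertia_conj_mem (inv_mem hg) hs
      rwa [inv_inv] at this
    obtain ⟨c, hc⟩ := hI1 _ h4
    exact ⟨c, by rw [hv2def, rb_conj, hc, Matrix.mulVec_smul]⟩
  have hv20 : v2 ≠ 0 := fun h0 => hv2 0 (by rw [h0, zero_smul])
  choose! c1 hc1 using hI1
  choose! c2 hc2 using hI2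
  -- not all scalars
  obtain ⟨φ0, hφ0⟩ := H05.exists_isFrobeniusAt P.prime P.lies
  obtain ⟨s0, hs0, hs0ne⟩ : ∃ s ∈ A.inertiaSubgroupIn ℚ, c1 s ≠ c2 s := by
    by_contra hno
    push Not at hno
    obtain ⟨a, b, hab⟩ := hsplit φ0
    obtain ⟨u, hu, hu1⟩ := exists_eig hab
    obtain ⟨g, hg, hgu⟩ := hirr u hu
    obtain ⟨c, hc⟩ := stable_line P hU (v := u) (fun s hs => ⟨c1 s, by
      rw [eq_scalar hv1 hv2 (hc1 s hs) (by rw [hno s hs]; exact hc2 s hs), Matrix.smul_mulVec,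
        Matrix.one_mulVec]⟩) hφ0 ⟨a, hu1⟩ hg
    exact hgu c hc
  have hconjm : ∀ {φ : GQ}, A.IsFrobeniusAt φ p → ∀ {s : GQ}, s ∈ A.inertiaSubgroupIn ℚ →
      φ⁻¹ * s * φ ∈ A.inertiaSubgroupIn ℚ := by
    intro φ hφ s hs
    have hφD : φ ∈ A.decompositionSubgroup ℚ := hφ.1
    have := TW.inertia_conj_mem (inv_mem hφD) hs
    rwa [inv_inv] at this
  -- Frobenius swaps the lines
  have hsw1 : ∀ φ, A.IsFrobeniusAt φ p → ∃ b : k, rb φ *ᵥ v1 = b • v2 := by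
    intro φ hφ
    rcases eig_cases hv1 hv2 (hc1 s0 hs0) (hc2 s0 hs0) hs0ne (u := rb φ *ᵥ v1)
      (c := c1 (φ⁻¹ * s0 * φ)) (by rw [rb_conj, hc1 _ (hconjm hφ hs0), Matrix.mulVec_smul])
      with h | h
    · exfalso
      obtain ⟨g, hg, hgu⟩ := hirr v1 hv1
      obtain ⟨c, hc⟩ := stable_line P hU (v := v1) (fun s hs => ⟨c1 s, hc1 s hs⟩) hφ h hg
      exact hgu c hc
    · exact h
  have hsw2 : ∀ φ, A.IsFrobeniusAt φ p → ∃ b : k, rb φ *ᵥ v2 = b • v1 := by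
    intro φ hφ
    rcases eig_cases hv1 hv2 (hc1 s0 hs0) (hc2 s0 hs0) hs0ne (u := rb φ *ᵥ v2)
      (c := c2 (φ⁻¹ * s0 * φ)) (by rw [rb_conj, hc2 _ (hconjm hφ hs0), Matrix.mulVec_smul])
      with h | h
    · exact h
    · exfalso
      obtain ⟨g, hg, hgu⟩ := hirr v2 hv20
      obtain ⟨c, hc⟩ := stable_line P hU (v := v2) (fun s hs => ⟨c2 s, hc2 s hs⟩) hφ h hg
      exact hgu c hc
  have hinj1 : ∀ {a b : k}, a • v1 = b • v1 → a = b := fun h => smul_left_injective k hv1 h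
  have hinj2 : ∀ {a b : k}, a • v2 = b • v2 → a = b := fun h => smul_left_injective k hv20 h
  have hrb_ne : ∀ (g : GQ) {u : Fin 2 → k}, u ≠ 0 → rb g *ᵥ u ≠ 0 := by
    intro g u hu h0
    apply hu
    rw [← mulVec_inv rb g u, h0, Matrix.mulVec_zero]
  have hc11 : c1 1 = 1 := hinj1 (by
    rw [← hc1 1 (one_mem _), map_one, Matrix.one_mulVec, one_smul])
  have hc21 : c2 1 = 1 := hinj2 (by
    rw [← hc2 1 (one_mem _), map_one, Matrix.one_mulVec, one_smul])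
  have hc1m : ∀ σ ∈ A.inertiaSubgroupIn ℚ, ∀ τ ∈ A.inertiaSubgroupIn ℚ,
      c1 (σ * τ) = c1 σ * c1 τ := by
    intro σ hσ τ hτ
    apply hinj1
    rw [← hc1 _ (mul_mem hσ hτ), map_mul, ← Matrix.mulVec_mulVec, hc1 τ hτ, Matrix.mulVec_smul,
      hc1 σ hσ, smul_smul, mul_comm]
  have hc2m : ∀ σ ∈ A.inertiaSubgroupIn ℚ, ∀ τ ∈ A.inertiaSubgroupIn ℚ,
      c2 (σ * τ) = c2 σ * c2 τ := by
    intro σ hσ τ hτ
    apply hinj2
    rw [← hc2 _ (mul_mem hσ hτ), map_mul, ← Matrix.mulVec_mulVec, hc2 τ hτ, Matrix.mulVec_smul,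
      hc2 σ hσ, smul_smul, mul_comm]
  have hc1U : ∀ σ ∈ A.inertiaSubgroupIn ℚ, σ ∈ rb.ker → c1 σ = 1 := by
    intro σ hσ hσU
    have h1 : rb σ = 1 := hσU
    apply hinj1
    rw [← hc1 σ hσ, h1, Matrix.one_mulVec, one_smul]
  have hc2U : ∀ σ ∈ A.inertiaSubgroupIn ℚ, σ ∈ rb.ker → c2 σ = 1 := by
    intro σ hσ hσU
    have h1 : rb σ = 1 := hσU
    apply hinj2
    rw [← hc2 σ hσ, h1, Matrix.one_mulVec, one_smul]
  -- `c2 = c1 ^ p`, `c1 = c2 ^ p`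
  have hswap : ∀ s ∈ A.inertiaSubgroupIn ℚ,
      c2 (φ0 * s * φ0⁻¹) = c1 s ∧ c1 (φ0 * s * φ0⁻¹) = c2 s := by
    intro s hs
    have hφD : φ0 ∈ A.decompositionSubgroup ℚ := hφ0.1
    have hs' := TW.inertia_conj_mem hφD hs
    have e1 : φ0⁻¹ * (φ0 * s * φ0⁻¹) * φ0 = s := by group
    obtain ⟨b, hb⟩ := hsw1 φ0 hφ0
    obtain ⟨b', hb'⟩ := hsw2 φ0 hφ0
    have hb0 : b ≠ 0 := by
      rintro rfl
      rw [zero_smul] at hb
      exact hrb_ne φ0 hv1 hb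
    have hb0' : b' ≠ 0 := by
      rintro rfl
      rw [zero_smul] at hb'
      exact hrb_ne φ0 hv20 hb'
    constructor
    · have h1 := rb_conj (rb := rb) φ0 (φ0 * s * φ0⁻¹) v1
      rw [e1, hb, hc1 s hs, Matrix.mulVec_smul, Matrix.mulVec_smul, hb, hc2 _ hs', smul_smul,
        smul_smul] at h1
      have h2 := hinj2 h1
      rw [mul_comm] at h2
      exact mul_right_cancel₀ hb0 h2
    · have h1 := rb_conj (rb := rb) φ0 (φ0 * s * φ0⁻¹) v2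
      rw [e1, hb', hc2 s hs, Matrix.mulVec_smul, Matrix.mulVec_smul, hb', hc1 _ hs', smul_smul,
        smul_smul] at h1
      have h2 := hinj1 h1
      rw [mul_comm] at h2
      exact mul_right_cancel₀ hb0' h2
  have hp1 : ∀ s ∈ A.inertiaSubgroupIn ℚ, c2 s = c1 s ^ p := by
    intro s hs
    rw [← (hswap s hs).2]
    exact tame_conj' P hc11 hc1m hU hc1U hφ0 hs
  have hp2 : ∀ s ∈ A.inertiaSubgroupIn ℚ, c1 s = c2 s ^ p := by
    intro s hs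
    rw [← (hswap s hs).1]
    exact tame_conj' P hc21 hc2m hU hc2U hφ0 hs
  -- the matrix
  obtain ⟨Q, hQ⟩ : ∃ Q : Mt k, Q = Matrix.of ![![v1 0, v2 0], ![v1 1, v2 1]] := ⟨_, rfl⟩
  have hcol0 : (fun a => Q a 0) = v1 := by
    funext a
    rw [hQ]
    fin_cases a <;> rfl
  have hcol1 : (fun a => Q a 1) = v2 := by
    funext a
    rw [hQ]
    fin_cases a <;> rfl
  have hQdet : IsUnit Q.det := by
    rw [isUnit_iff_ne_zero]
    intro h0
    obtain ⟨u, hu, hu0⟩ := Matrix.exists_mulVec_eq_zero_iff.2 h0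
    have h1 : u 0 • v1 + u 1 • v2 = 0 := by
      rw [← hu0]
      funext i
      have e1 : (Q *ᵥ u) i = Q i 0 * u 0 + Q i 1 * u 1 := by
        rw [Matrix.mulVec, dotProduct, Fin.sum_univ_two]
      have e2 : Q i 0 = v1 i := congrFun hcol0 i
      have e3 : Q i 1 = v2 i := congrFun hcol1 i
      rw [e1, e2, e3, Pi.add_apply, Pi.smul_apply, Pi.smul_apply, smul_eq_mul, smul_eq_mul,
        mul_comm (u 0), mul_comm (u 1)]
    obtain ⟨h2, h3⟩ := comb_inj hv1 hv2 h1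
    apply hu
    funext i
    fin_cases i
    · exact h2
    · exact h3
  have hQQ : Q * Q⁻¹ = 1 := Matrix.mul_nonsing_inv Q hQdet
  have hQ'Q : Q⁻¹ * Q = 1 := Matrix.nonsing_inv_mul Q hQdet
  refine ⟨Q, Q⁻¹, c1, hQQ, fun s hs => ?_, fun s hs => ?_, ⟨s0, hs0, ?_⟩, fun φ hφ => ⟨?_, ?_⟩⟩
  · have h0 := conj_entry hQ'Q (X := rb s) (i := 0) (j := 0) (c := c1 s)
      (by rw [hcol0]; exact hc1 s hs)
    have h1 := conj_entry hQ'Q (X := rb s) (i := 1) (j := 1) (c := c2 s)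
      (by rw [hcol1]; exact hc2 s hs)
    rw [← hp1 s hs]
    have a00 : (Q⁻¹ * rb s * Q) 0 0 = c1 s := by rw [h0 0, Matrix.one_apply_eq, mul_one]
    have a10 : (Q⁻¹ * rb s * Q) 1 0 = 0 := by
      rw [h0 1, Matrix.one_apply_ne one_ne_zero, mul_zero]
    have a01 : (Q⁻¹ * rb s * Q) 0 1 = 0 := by
      rw [h1 0, Matrix.one_apply_ne zero_ne_one, mul_zero]
    have a11 : (Q⁻¹ * rb s * Q) 1 1 = c2 s := by rw [h1 1, Matrix.one_apply_eq, mul_one]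
    ext i j
    fin_cases i <;> fin_cases j
    · exact a00
    · exact a01
    · exact a10
    · exact a11
  · rw [pow_two, pow_mul, ← hp1 s hs, ← hp2 s hs]
  · rw [← hp1 s0 hs0]
    exact hs0ne.symm
  · obtain ⟨b, hb⟩ := hsw1 φ hφ
    have h0 := conj_entry hQ'Q (X := rb φ) (i := 1) (j := 0) (c := b)
      (by rw [hcol0, hcol1]; exact hb) 0
    rw [h0, Matrix.one_apply_ne zero_ne_one, mul_zero]
  · obtain ⟨b, hb⟩ := hsw2 φ hφ
    have h0 := conj_entry hQ'Q (X := rb φ) (i := 0) (j := 1) (c := b)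
      (by rw [hcol0, hcol1]; exact hb) 1
    rw [h0, Matrix.one_apply_ne one_ne_zero, mul_zero]

end Fermat.Agent.H18S
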