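import Mathlib
import Fermat.Agent.TW.Count
import Fermat.Agent.TW.LH7
import Fermat.Agent.TW.StrictOrd
import Fermat.Agent.H19.Trans
import Fermat.Agent.H25.SelC
import Fermat.Agent.H09.LHD
import Fermat.Agent.DefRing.Burnside
import Fermat.Prelude.Def_GaloisRep_Flat

/-!
# The frame of the existence of Taylor-Wiles primes (S56)
-/

set_option autoImplicit false
set_option linter.unusedSectionVars false
set_option linter.style.haveILetI false

noncomputable section

namespace Fermat.Agent.H18S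

open IsLocalRing Matrix Fermat.Agent.CC Fermat.Agent.TW Fermat.Agent.H25.SB TensorProduct
open Fermat.Agent.H04 (DN M2 Dat IsNRep mapM ofMat IsCont PreTest)

section TWD

variable {k : Type} [Field k]

/-- the matrices of a residual representation -/
def rbOf (ρbar : ResidualGaloisRep k) (b : Module.Basis (Fin 2) k ρbar.V) : GQ →* Mt k :=
  (LinearMap.toMatrixAlgEquiv b).toAlgHom.toRingHom.toMonoidHom.comp ρbar.ρ

theorem rbOf_apply (ρbar : ResidualGaloisRep k) (b : Module.Basis (Fin 2) k ρbar.V) (σ : GQ) :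
    rbOf ρbar b σ = LinearMap.toMatrix b b (ρbar.ρ σ) := rfl

theorem rbOf_eq_one_iff (ρbar : ResidualGaloisRep k) (b : Module.Basis (Fin 2) k ρbar.V) (σ : GQ) :
    rbOf ρbar b σ = 1 ↔ ρbar.ρ σ = 1 := by
  rw [rbOf_apply]
  constructor
  · intro h
    apply (LinearMap.toMatrix b b).injective
    rw [h]
    exact (LinearMap.toMatrix_one b).symm
  · intro h
    rw [h]
    exact LinearMap.toMatrix_one b

/-- irreducibility in terms of matrices -/
theorem noLine_of (ρbar : ResidualGaloisRep k) (b : Module.Basis (Fin 2) k ρbar.V)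
    (K : Type) [Field K] [Algebra k K] (G : Subgroup GQ)
    (h : ∀ V : Submodule K (ρbar.baseChange K).V,
        (∀ σ ∈ G, ∀ x ∈ V, (ρbar.baseChange K).ρ σ x ∈ V) → V = ⊥ ∨ V = ⊤) :
    NoLine (TW.ext K (rbOf ρbar b)) G := by
  intro v hv
  by_contra hcon
  push Not at hcon
  change ∀ V : Submodule K (K ⊗[k] ρbar.V), (∀ σ ∈ G, ∀ x ∈ V, (ρbar.ρ σ).baseChange K x ∈ V) →
    V = ⊥ ∨ V = ⊤ at h
  let B : Module.Basis (Fin 2) K (K ⊗[k] ρbar.V) := Algebra.TensorProduct.basis K b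
  let x : K ⊗[k] ρbar.V := B.equivFun.symm v
  have hx0 : x ≠ 0 := by
    intro h0
    apply hv
    have h1 : B.equivFun x = v := B.equivFun.apply_symm_apply v
    rw [← h1, h0, map_zero]
  have key : ∀ σ, (ρbar.ρ σ).baseChange K x =
      B.equivFun.symm (TW.ext K (rbOf ρbar b) σ *ᵥ v) := by
    intro σ
    apply B.equivFun.injective
    rw [LinearEquiv.apply_symm_apply]
    have h2 := LinearMap.toMatrix_mulVec_repr B B ((ρbar.ρ σ).baseChange K) x
    have h3 : LinearMap.toMatrix B B ((ρbar.ρ σ).baseChange K) =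
        (LinearMap.toMatrix b b (ρbar.ρ σ)).map (algebraMap k K) :=
      LinearMap.toMatrix_baseChange K _ _ _
    rw [h3] at h2
    have h4 : (B.repr x : Fin 2 → K) = v := B.equivFun.apply_symm_apply v
    rw [h4] at h2
    exact h2.symm
  rcases h (Submodule.span K {x}) (fun σ hσ y hy => by
    obtain ⟨c, rfl⟩ := Submodule.mem_span_singleton.mp hy
    obtain ⟨a, ha⟩ := hcon σ hσ
    rw [map_smul, key, ha, map_smul]
    exact Submodule.smul_mem _ _ (Submodule.smul_mem _ _ (Submodule.mem_span_singleton_self _)))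
    with h1 | h1
  · exact hx0 (Submodule.span_singleton_eq_bot.mp h1)
  · have h2 := finrank_span_singleton (K := K) hx0
    rw [h1, finrank_top, Module.finrank_baseChange, ρbar.finrank_eq] at h2
    omega

theorem isOpen_ker_rbOf (ρbar : ResidualGaloisRep k) (b : Module.Basis (Fin 2) k ρbar.V) :
    lev.isOpen (rbOf ρbar b).ker := by
  obtain ⟨L, hL, h⟩ := ρbar.factorsThroughFiniteLevel
  refine ⟨L, hL, fun σ hσ => ?_⟩
  rw [MonoidHom.mem_ker, rbOf_eq_one_iff]
  exact h σ fun x hx => hσ ⟨x, hx⟩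

/-- the Taylor-Wiles data of a residual representation -/
theorem twdata_of {p : ℕ} [Fact p.Prime] (hp2 : p ≠ 2) (ρbar : ResidualGaloisRep k)
    (b : Module.Basis (Fin 2) k ρbar.V) (habs : ρbar.IsAbsolutelyIrreducible)
    (hdet : (GaloisRepAdic.ofResidualGaloisRep ρbar).DetIsCyclotomic p)
    (hTW : ∀ (K : Type) [Field K] [Algebra k K]
      (G : Subgroup GQ), G.index = 2 →
      ∀ V : Submodule K (ρbar.baseChange K).V,
        (∀ σ ∈ G, ∀ x ∈ V, (ρbar.baseChange K).ρ σ x ∈ V) → V = ⊥ ∨ V = ⊤)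
    (S₁ : Finset Nat.Primes) (hS : ∀ q : Nat.Primes, q ∉ S₁ → ρbar.IsUnramifiedAt q) :
    TWData p S₁ (rbOf ρbar b) ((Matrix.detMonoidHom).comp (rbOf ρbar b)) where
  prime := Fact.out
  ne_two := hp2
  open_ker := levS_isOpen_of (isOpen_ker_rbOf ρbar b) fun q hq A hA σ hσ => by
    rw [MonoidHom.mem_ker, rbOf_eq_one_iff]
    exact hS q hq A hA σ hσ
  det := fun _ => rfl
  chi := fun σ a ha => by
    have h1 := hdet.2 1 σ a (fun μ hμ => ha μ (by rwa [pow_one] at hμ))
    have hp0 : ((p : ℕ) : k) = 0 := by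
      have h2 := hdet.1
      rw [IsLocalRing.maximalIdeal_eq_bot] at h2
      exact h2
    rw [pow_one, hp0, Ideal.mem_span_singleton, zero_dvd_iff, sub_eq_zero] at h1
    have h3 : LinearMap.det ((GaloisRepAdic.ofResidualGaloisRep ρbar).ρ σ) =
        (rbOf ρbar b σ).det := (LinearMap.det_toMatrix b (ρbar.ρ σ)).symm
    rw [h3] at h1
    exact h1
  noLine := noLine_of ρbar b _ ⊤ fun V hV => habs V fun σ x hx => hV σ trivial x hx
  noLine2 := fun G' hG' => noLine_of ρbar b _ G' (hTW _ G' hG')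

end TWD

section Lifts

variable {𝒪 : Type} [CommRing 𝒪] [IsLocalRing 𝒪] {p : ℕ}

theorem ofMat_rho {s : GQ →* M2 (DN 𝒪)} (hs : IsCont s) (σ : GQ) :
    (ofMat s hs).ρ σ = Matrix.toLin' (s σ) := rfl

/-- a deformation to the dual numbers is continuous -/
theorem isOpen_ker_of_isCont {s : GQ →* M2 (DN 𝒪)} (hs : IsCont s) : lev.isOpen s.ker := by
  obtain ⟨L, hL, h⟩ := hs 2
  refine ⟨L, hL, fun σ hσ => ?_⟩
  rw [MonoidHom.mem_ker]
  ext i j
  have h1 := h σ (fun x hx => hσ ⟨x, hx⟩) i j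
  rw [TW.maximalIdeal_sq, Ideal.mem_bot, sub_eq_zero] at h1
  exact h1

theorem eq_one_of_unramified {s : GQ →* M2 (DN 𝒪)} (hs : IsCont s) {q : ℕ}
    (h : (ofMat s hs).IsUnramifiedAt q) {A : ValuationSubring Qb} (hA : A.LiesOverPrime q) {σ : GQ}
    (hσ : σ ∈ A.inertiaSubgroupIn ℚ) : s σ = 1 := by
  have h1 : Matrix.toLin' (s σ) = LinearMap.id := h A hA σ hσ
  apply Matrix.toLin'.injective
  rw [h1]
  exact Matrix.toLin'_one.symm

theorem trace_eq_two_of {s : GQ →* M2 (DN 𝒪)} (hs : IsCont s) {q : ℕ}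
    (h : (ofMat s hs).IsUnipotentOnInertiaAt q) {A : ValuationSubring Qb}
    (hA : A.LiesOverPrime q) {τ : GQ} (hτ : τ ∈ A.inertiaSubgroupIn ℚ) : (s τ).trace = 2 := by
  have h1 : (Matrix.toLin' (s τ)).charpoly = (Polynomial.X - 1) ^ 2 := h A hA τ hτ
  rw [Matrix.charpoly_toLin', Matrix.charpoly_fin_two] at h1
  have h2 := congrArg (fun P => Polynomial.coeff P 1) h1
  have e1 : (Polynomial.X - 1 : Polynomial (DN 𝒪)) ^ 2 =
      Polynomial.X ^ 2 - Polynomial.C 2 * Polynomial.X + Polynomial.C 1 := by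
    rw [map_ofNat, map_one]; ring
  rw [e1] at h2
  simp only [Polynomial.coeff_add, Polynomial.coeff_sub, Polynomial.coeff_X_pow,
    Polynomial.coeff_C_mul, Polynomial.coeff_X_one, Polynomial.coeff_C_succ, mul_one] at h2
  simpa using h2

theorem sn_det_of [CharP (ResidueField 𝒪) p] (hp : p.Prime) {s : GQ →* M2 (DN 𝒪)} (hs : IsCont s)
    (h : (ofMat s hs).DetIsCyclotomic p) (σ : GQ) : sn (s σ).det = 0 := by
  haveI : NeZero p := ⟨hp.ne_zero⟩
  obtain ⟨a, ha⟩ := exists_pow_action p σ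
  have h1 := h.2 1 σ a (fun μ hμ => ha μ (by rwa [pow_one] at hμ))
  rw [pow_one, dn_natCast_eq_zero, Ideal.mem_span_singleton, zero_dvd_iff, sub_eq_zero] at h1
  have h2 : LinearMap.det ((ofMat s hs).ρ σ) = (s σ).det := by
    change LinearMap.det (Matrix.toLin' (s σ)) = _
    rw [LinearMap.det_toLin']
  rw [h2] at h1
  rw [h1, sn_natCast]

/-- a flat deformation has a Hopf order -/
theorem hasLH_of_isFlatAt [Finite (ResidueField 𝒪)] (hp : p.Prime) {s : GQ →* M2 (DN 𝒪)}
    (hs : IsCont s) (h : (ofMat s hs).IsFlatAt p) {A : ValuationSubring Qb}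
    (hA : A.LiesOverPrime p) : HasLH A (actV A s) := by
  haveI : Finite (DN 𝒪) := instFiniteDN
  haveI : Finite (DN 𝒪 ⧸ (⊥ : Ideal (DN 𝒪))) := Finite.of_surjective _ Ideal.Quotient.mk_surjective
  have h1 := H19.hasHopf_of_isFlatAt h (⊥ : Ideal (DN 𝒪))
  have h2 : H19.HasHopf p (actG s) := by
    refine h1.of_injective
      (p := (Submodule.mkQ ((⊥ : Ideal (DN 𝒪)) • (⊤ : Submodule (DN 𝒪) (ofMat s hs).V))).toAddMonoidHom)
      (fun σ m => ?_) ?_
    · rfl
    · intro x y hxy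
      have h3 := (Submodule.Quotient.eq _).mp hxy
      rw [Submodule.bot_smul, Submodule.mem_bot, sub_eq_zero] at h3
      exact h3
  obtain ⟨Hh, hH⟩ := h2
  exact Fermat.Agent.H09.LHopf.hasLH_of_isHopfOrder' hp hA hH fun σ m => rfl

end Lifts

end Fermat.Agent.H18S
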