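import Fermat.Agent.H18S.Diag

/-!
# The fundamental character of level two from leading coefficients
-/

set_option autoImplicit false
set_option linter.unusedSectionVars false

namespace Fermat.Agent.H18S

open Matrix Fermat.Agent.CC Fermat.Agent.TW NVal

variable {A : ValuationSubring Qb} {p : ℕ} {w : Qb → ℝ} {k : Type*} [Field k]

section subfield

/-- the subfield additively generated by a submonoid of a finite field -/
def KF [Finite k] (S : Submonoid k) : Subfield k :=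
  { Subring.closure (S : Set k) with
    inv_mem' := by
      intro x hx
      have := Fintype.ofFinite k
      change x⁻¹ ∈ Subring.closure (S : Set k)
      by_cases h : x = 0
      · rw [h, _root_.inv_zero]
        exact zero_mem _
      · have h1 : x⁻¹ = x ^ (Fintype.card k - 2) := by
          have h2 := FiniteField.pow_card_sub_one_eq_one x h
          have h3 : 1 < Fintype.card k := Fintype.one_lt_card
          have h4 : Fintype.card k - 1 = (Fintype.card k - 2) + 1 := by omega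
          rw [h4, pow_succ] at h2
          exact (eq_inv_of_mul_eq_one_left h2).symm
        rw [h1]
        exact pow_mem hx _ }

theorem mem_KF [Finite k] {S : Submonoid k} {x : k} :
    x ∈ KF S ↔ x ∈ AddSubgroup.closure (S : Set k) := by
  change x ∈ Subring.closure (S : Set k) ↔ _
  rw [Subring.mem_closure_iff, Submonoid.closure_eq]

/-- elements of `KF` -/
theorem KF_pow [Finite k] [CharP k p] (hp : p.Prime) {S : Submonoid k} {n : ℕ}
    (h : ∀ x ∈ S, x ^ p ^ n = x) {x : k} (hx : x ∈ KF S) : x ^ p ^ n = x := by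
  have hf : Fact p.Prime := ⟨hp⟩
  rw [mem_KF] at hx
  induction hx using AddSubgroup.closure_induction with
  | mem x hx => exact h x hx
  | zero => rw [zero_pow (pow_ne_zero _ hp.ne_zero)]
  | add x y _ _ hx hy => rw [add_pow_char_pow, hx, hy]
  | neg x _ hx =>
    rw [← zero_sub, sub_pow_char_pow, hx, zero_pow (pow_ne_zero _ hp.ne_zero)]

theorem card_KF [Finite k] [CharP k p] (hp : p.Prime) {S : Submonoid k}
    (h : ∀ x ∈ S, x ^ p ^ 2 = x) (hne : ∃ x ∈ S, x ^ p ≠ x) : Nat.card (KF S) = p ^ 2 := by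
  classical
  have hf : Fact p.Prime := ⟨hp⟩
  have := Fintype.ofFinite k
  have : Fintype (KF S) := Fintype.ofFinite _
  have hcp : CharP (KF S) p := (RingHom.charP_iff (KF S).subtype
    (RingHom.injective _) p).2 inferInstance
  obtain ⟨n, -, hn⟩ := FiniteField.card (KF S) p
  rw [Nat.card_eq_fintype_card, hn]
  -- upper bound
  have h1 : p ^ (n : ℕ) ≤ p ^ 2 := by
    have hp2 : 1 < p ^ 2 := Nat.one_lt_pow two_ne_zero hp.one_lt
    have h2 : (Finset.univ : Finset (KF S)).map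
        ⟨fun x : KF S => (x : k), Subtype.val_injective⟩ ⊆
        (Polynomial.X ^ p ^ 2 - Polynomial.X : Polynomial k).roots.toFinset := by
      intro x hx
      rw [Finset.mem_map] at hx
      obtain ⟨y, -, rfl⟩ := hx
      rw [Multiset.mem_toFinset, Polynomial.mem_roots (FiniteField.X_pow_card_sub_X_ne_zero k hp2),
        Polynomial.IsRoot, Polynomial.eval_sub, Polynomial.eval_pow, Polynomial.eval_X]
      exact sub_eq_zero.2 (KF_pow hp h y.2)
    have h3 := Finset.card_le_card h2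
    rw [Finset.card_map, Finset.card_univ, hn] at h3
    refine h3.trans ((Multiset.toFinset_card_le _).trans ((Polynomial.card_roots' _).trans ?_))
    rw [FiniteField.X_pow_card_sub_X_natDegree_eq k hp2]
  have h4 : (n : ℕ) ≤ 2 := (Nat.pow_le_pow_iff_right hp.one_lt).1 h1
  obtain ⟨x, hx, hxne⟩ := hne
  have h5 : (n : ℕ) ≠ 1 := by
    intro h5
    rw [h5, pow_one] at hn
    apply hxne
    have hxK : x ∈ KF S := mem_KF.2 (AddSubgroup.subset_closure hx)
    have h6 := FiniteField.pow_card (⟨x, hxK⟩ : KF S)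
    rw [hn] at h6
    exact congrArg Subtype.val h6
  have h6 := n.pos
  have h7 : (n : ℕ) = 2 := by omega
  rw [h7]

end subfield

/-- arithmetic of the level -/
theorem level_cases {p m : ℕ} (hp : 3 ≤ p) (hm : 1 ≤ m) (hm' : m ≤ p + 1)
    (h : p ^ 2 - 1 ∣ (m - 1) * (p + 1)) : m = 1 ∨ m = p := by
  have h1 : p ^ 2 - 1 = (p - 1) * (p + 1) := by
    obtain ⟨q, rfl⟩ : ∃ q, p = q + 1 := ⟨p - 1, by omega⟩
    rw [Nat.add_sub_cancel, Nat.sub_eq_iff_eq_add (Nat.one_le_pow _ _ (by omega))]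
    ring
  rw [h1] at h
  have h2 : p - 1 ∣ m - 1 := Nat.dvd_of_mul_dvd_mul_right (by omega) h
  obtain ⟨c, hc⟩ := h2
  rcases Nat.lt_or_ge c 1 with h3 | h3
  · have : c = 0 := by omega
    rw [this, mul_zero] at hc
    left; omega
  rcases Nat.lt_or_ge c 2 with h4 | h4
  · have : c = 1 := by omega
    rw [this, mul_one] at hc
    right; omega
  · exfalso
    have h5 : (p - 1) * 2 ≤ (p - 1) * c := Nat.mul_le_mul_left _ h4
    omega

theorem tame_level {p : ℕ} (hp : p.Prime) : ¬ p ∣ p ^ 2 - 1 := by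
  intro h
  have h1 : 1 ≤ p ^ 2 := Nat.one_le_pow _ _ hp.pos
  have h2 : p ∣ p ^ 2 := dvd_pow_self p two_ne_zero
  have h3 : p ∣ 1 := by
    have := Nat.dvd_sub h2 h
    rwa [Nat.sub_sub_self h1] at this
  exact hp.one_lt.ne' (Nat.dvd_one.1 h3)

variable {rb : GQ →* Mt k}

/-- **leading coefficients** -/
theorem exists_tau [Finite k] [CharP k p] (P : PL p A w) (hp2 : p ≠ 2) {ζ : Qb}
    {x : GQ → ZMod p} (C : CY p ζ x) (hU : IsOpen (rb.ker : Set GQ))
    (hLH : HasLH A (actK A rb)) {a : GQ → k} {v : Fin 2 → k} (hv : v ≠ 0)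
    (htriv : ∀ s ∈ A.inertiaSubgroupIn ℚ, a s = 1 → rb s = 1)
    (hav : ∀ s ∈ A.inertiaSubgroupIn ℚ, rb s *ᵥ v = a s • v)
    (hpow : ∀ s ∈ A.inertiaSubgroupIn ℚ, a s ^ p ^ 2 = a s)
    (hne : ∃ s ∈ A.inertiaSubgroupIn ℚ, a s ^ p ≠ a s)
    (hdet : ∀ s ∈ A.inertiaSubgroupIn ℚ, a s ^ (p + 1) = ((x s).val : k))
    {π : Qb} (hπ : π ^ (p ^ 2 - 1) = p) :
    ∃ (K : Subfield k) (τ : K →+* IsLocalRing.ResidueField A) (m : ℕ)
      (hal : ∀ s ∈ A.inertiaSubgroupIn ℚ, a s ∈ K), Nat.card K = p ^ 2 ∧ (m = 1 ∨ m = p) ∧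
      ∀ s (hs : s ∈ A.inertiaSubgroupIn ℚ), τ ⟨a s, hal s hs⟩ = rsd A (s π / π) ^ m := by
  classical
  have hp := P.prime
  have hf : Fact p.Prime := ⟨hp⟩
  have hp3 : 3 ≤ p := by
    have := hp.two_le
    omega
  have hle := inertia_le_decomposition A
  have hm0 := tame_level hp
  obtain ⟨H, hH⟩ := hLH
  -- the character
  have hinj : ∀ {b c : k}, b • v = c • v → b = c := fun h => smul_left_injective k hv h
  have ha1 : a 1 = 1 := hinj (by rw [← hav 1 (one_mem _), map_one, Matrix.one_mulVec, one_smul])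
  have ham : ∀ σ ∈ A.inertiaSubgroupIn ℚ, ∀ τ ∈ A.inertiaSubgroupIn ℚ, a (σ * τ) = a σ * a τ := by
    intro σ hσ τ hτ
    apply hinj
    rw [← hav _ (mul_mem hσ hτ), map_mul, ← Matrix.mulVec_mulVec, hav τ hτ, Matrix.mulVec_smul,
      hav σ hσ, smul_smul, mul_comm]
  have haU : ∀ σ ∈ A.inertiaSubgroupIn ℚ, σ ∈ rb.ker → a σ = 1 := by
    intro σ hσ hσU
    have h1 : rb σ = 1 := hσU
    apply hinj
    rw [← hav σ hσ, h1, Matrix.one_mulVec, one_smul]
  have hane : ∀ s ∈ A.inertiaSubgroupIn ℚ, a s ≠ 0 := by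
    intro σ hσ h0
    have := ham σ hσ σ⁻¹ (inv_mem hσ)
    rw [mul_inv_cancel, ha1, h0, zero_mul] at this
    exact one_ne_zero this
  have hpow1 : ∀ s ∈ A.inertiaSubgroupIn ℚ, a s ^ (p ^ 2 - 1) = 1 := by
    intro s hs
    have h1 := hpow s hs
    have h2 : p ^ 2 = (p ^ 2 - 1) + 1 := by
      have := Nat.one_le_pow 2 p hp.pos
      omega
    rw [h2, pow_succ] at h1
    exact mul_right_cancel₀ (hane s hs) (by rw [one_mul]; exact h1)
  -- the tame subgroup acts trivially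
  have hJ : ∀ s (hs : s ∈ Jt A π), ∀ z : Fin 2 → k, actK A rb ⟨s, hs.1⟩ z = z := by
    intro s hs z
    rw [actK_apply, htriv s hs.1 (char_trivial' P ha1 ham hU haU hm0 hpow1 hπ hs),
      Matrix.one_mulVec]
  obtain ⟨U, -, -⟩ := P.uf_tame hm0 hπ
  have hπ0 := P.tame_ne hm0 hπ
  have hwπ := P.tame_w hm0 hπ
  have hepos : 0 < p ^ 2 - 1 := U.e_pos
  have hepos' : (0 : ℝ) < ((p ^ 2 - 1 : ℕ) : ℝ) := Nat.cast_pos.2 hepos
  -- points are connected
  have hconn : ∀ b : k, TDS w H 0 (b • v) := by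
    intro b
    obtain ⟨s, hs, hsne⟩ := hne
    have h1 : a s - 1 ≠ 0 := by
      intro h1
      rw [sub_eq_zero] at h1
      rw [h1, one_pow] at hsne
      exact hsne rfl
    have h2 := hH.tds_inertia P ⟨s, hs⟩ ((b / (a s - 1)) • v)
    have h3 : actK A rb ⟨s, hs⟩ ((b / (a s - 1)) • v) - (b / (a s - 1)) • v = b • v := by
      rw [actK_apply, Matrix.mulVec_smul, hav s hs, smul_smul, ← sub_smul]
      congr 1
      field_simp
    rwa [h3] at h2
  -- distance of the point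
  obtain ⟨r, hr, φ, hφ, hφne, hφr⟩ := hH.exists_td P hv
  obtain ⟨m', hm'⟩ := U.val _ (sub_ne_zero.2 hφne) (hH.fix_sub P U.le (fun s hs => hJ s hs v) hφ)
  have hr0 : 0 < r := by
    have h1 := hconn 1
    rw [one_smul] at h1
    have h2 := (h1 φ hφ).resolve_left (sub_ne_zero.2 hφne)
    rwa [hφr] at h2
  have hpv : ∀ z : Fin 2 → k, p • z = 0 := by
    intro z
    funext j
    rw [Pi.smul_apply, nsmul_eq_mul, CharP.cast_eq_zero, zero_mul]
    rfl
  have hr1 : r ≤ 1 / ((p : ℝ) - 1) := by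
    by_contra hlt
    rw [not_le] at hlt
    exact hv (hH.eq_zero P (hpv v) (hr.tds hlt))
  have hrm : r = m' / ((p ^ 2 - 1 : ℕ) : ℝ) := by rw [← hφr, hm']
  obtain ⟨m, hm⟩ : ∃ m : ℕ, m' = m := by
    refine ⟨m'.toNat, (Int.toNat_of_nonneg ?_).symm⟩
    rw [hrm] at hr0
    have := (div_pos_iff_of_pos_right hepos').1 hr0
    have h2 : (0 : ℤ) < m' := by exact_mod_cast this
    exact h2.le
  have hrm' : r = (m : ℕ) / ((p ^ 2 - 1 : ℕ) : ℝ) := by rw [hrm, hm, Int.cast_natCast]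
  have hmpos : 1 ≤ m := by
    rw [hrm'] at hr0
    have := (div_pos_iff_of_pos_right hepos').1 hr0
    exact_mod_cast this
  have hmle : m ≤ p + 1 := by
    rw [hrm', div_le_div_iff₀ hepos' (by
      have : (3 : ℝ) ≤ p := by exact_mod_cast hp3
      linarith)] at hr1
    have h1 : ((p ^ 2 - 1 : ℕ) : ℝ) = (p : ℝ) ^ 2 - 1 := by
      rw [Nat.cast_sub (Nat.one_le_pow 2 p hp.pos)]
      push_cast
      rfl
    rw [h1] at hr1
    have h3 : (3 : ℝ) ≤ p := by exact_mod_cast hp3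
    have h2 : (m : ℝ) ≤ (p : ℝ) + 1 := by
      by_contra hlt
      rw [not_le] at hlt
      nlinarith
    exact_mod_cast h2
  rw [hrm'] at hr
  -- the subfield
  let S : Submonoid k :=
    { carrier := {b | ∃ s ∈ A.inertiaSubgroupIn ℚ, a s = b}
      mul_mem' := by
        rintro b c ⟨s, hs, rfl⟩ ⟨t, ht, rfl⟩
        exact ⟨s * t, mul_mem hs ht, ham s hs t ht⟩
      one_mem' := ⟨1, one_mem _, ha1⟩ }
  have hS : ∀ b, b ∈ S ↔ ∃ s ∈ A.inertiaSubgroupIn ℚ, a s = b := fun b => Iff.rfl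
  have hal : ∀ s ∈ A.inertiaSubgroupIn ℚ, a s ∈ KF S := fun s hs =>
    mem_KF.2 (AddSubgroup.subset_closure ⟨s, hs, rfl⟩)
  have hcard : Nat.card (KF S) = p ^ 2 := by
    refine card_KF hp (fun b hb => ?_) ?_
    · obtain ⟨s, hs, rfl⟩ := (hS b).1 hb
      exact hpow s hs
    · obtain ⟨s, hs, hsne⟩ := hne
      exact ⟨a s, ⟨s, hs, rfl⟩, hsne⟩
  have hTD : ∀ b : KF S, TD w H ((m : ℕ) / ((p ^ 2 - 1 : ℕ) : ℝ)) ((b : k) • v) := by
    rintro ⟨b, hb⟩
    have hb' := mem_KF.1 hb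
    change TD w H _ (b • v)
    clear hb
    induction hb' using AddSubgroup.closure_induction with
    | mem b hb =>
      obtain ⟨s, hs, rfl⟩ := (hS b).1 hb
      rw [← hav s hs]
      exact hH.act_td P ⟨s, hs⟩ hr
    | zero => rw [zero_smul]; exact TD_zero _
    | add b c _ _ h1 h2 => rw [add_smul]; exact h1.add hH P h2
    | neg b _ h1 => rw [neg_smul]; exact h1.neg hH P
  obtain ⟨f, hfdef⟩ : ∃ f : KF S → IsLocalRing.ResidueField A,
    ∀ b, f b = Tl A π m φ ((b : k) • v) := ⟨_, fun _ => rfl⟩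
  have hfadd : ∀ b c, f (b + c) = f b + f c := by
    intro b c
    rw [hfdef, hfdef, hfdef, Subfield.coe_add, add_smul]
    exact Tl_add hH P hπ0 hwπ hepos hmpos (hTD b) (hTD c) hφ
  have hfact : ∀ s (hs : s ∈ A.inertiaSubgroupIn ℚ) b,
      f (⟨a s, hal s hs⟩ * b) = rsd A (s π / π) ^ m * f b := by
    intro s hs b
    rw [hfdef, hfdef]
    have h1 : ((⟨a s, hal s hs⟩ * b : KF S) : k) • v = actK A rb ⟨s, hs⟩ ((b : k) • v) := by
      rw [actK_apply, Matrix.mulVec_smul, hav s hs, smul_smul, mul_comm (b : k)]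
      rfl
    rw [h1]
    exact Tl_act hH P hπ0 hwπ (hTD b) hφ ⟨s, hs⟩
  have hf1 : f 1 ≠ 0 := by
    rw [hfdef, Subfield.coe_one, one_smul]
    have h1 := hr.bl_lead hH P hπ0 hwπ hφ
    unfold Tl
    rw [Ne, P.rsd_eq_zero_iff h1]
    rintro (h2 | h2)
    · exact (div_ne_zero (sub_ne_zero.2 hφne) (pow_ne_zero _ hπ0)) h2
    · rw [P.nv.w_div (sub_ne_zero.2 hφne) (pow_ne_zero _ hπ0), P.nv.w_pow hπ0, hwπ, hφr, hrm'] at h2
      have h3 : (m : ℝ) / ((p ^ 2 - 1 : ℕ) : ℝ) - m * (1 / ((p ^ 2 - 1 : ℕ) : ℝ)) = 0 := by ring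
      rw [h3] at h2
      exact lt_irrefl _ h2
  let F : KF S →+ IsLocalRing.ResidueField A :=
    AddMonoidHom.mk' (fun b => f b / f 1) fun b c => by rw [hfadd, add_div]
  have hF : ∀ b, F b = f b / f 1 := fun b => rfl
  have hF1 : F 1 = 1 := by rw [hF, div_self hf1]
  have hFa : ∀ s (hs : s ∈ A.inertiaSubgroupIn ℚ) b,
      F (⟨a s, hal s hs⟩ * b) = rsd A (s π / π) ^ m * F b := by
    intro s hs b
    rw [hF, hF, hfact s hs, mul_div_assoc]
  have hFa1 : ∀ s (hs : s ∈ A.inertiaSubgroupIn ℚ),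
      F ⟨a s, hal s hs⟩ = rsd A (s π / π) ^ m := by
    intro s hs
    have := hFa s hs 1
    rwa [mul_one, hF1, mul_one] at this
  have hFmul : ∀ b c, F (b * c) = F b * F c := by
    rintro ⟨b, hb⟩ c
    have hb' := mem_KF.1 hb
    induction hb' using AddSubgroup.closure_induction with
    | mem b hb' =>
      obtain ⟨s, hs, rfl⟩ := (hS b).1 hb'
      rw [hFa s hs c, hFa1 s hs]
    | zero =>
      have e1 : (⟨0, hb⟩ : KF S) = 0 := rfl
      rw [e1, zero_mul, map_zero, zero_mul]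
    | add b c' hb1 hb2 h1 h2 =>
      have e1 : (⟨b + c', hb⟩ : KF S) = ⟨b, mem_KF.2 hb1⟩ + ⟨c', mem_KF.2 hb2⟩ := rfl
      rw [e1, add_mul, map_add, map_add, h1, h2, add_mul]
    | neg b hb1 h1 =>
      have e1 : (⟨-b, hb⟩ : KF S) = -⟨b, mem_KF.2 hb1⟩ := rfl
      rw [e1, neg_mul, map_neg, map_neg, h1, neg_mul]
  let τ : KF S →+* IsLocalRing.ResidueField A :=
    { toFun := F
      map_one' := hF1
      map_mul' := hFmul
      map_zero' := map_zero F
      map_add' := map_add F }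
  have hτ : ∀ s (hs : s ∈ A.inertiaSubgroupIn ℚ), τ ⟨a s, hal s hs⟩ = rsd A (s π / π) ^ m :=
    hFa1
  refine ⟨KF S, τ, m, hal, hcard, ?_, hτ⟩
  -- the level
  refine level_cases hp3 hmpos hmle ?_
  have hnz : (p ^ 2 - 1 : ℕ) ≠ 0 := hepos.ne'
  have hNZ : NeZero (p ^ 2 - 1 : ℕ) := ⟨hnz⟩
  have hNZ' : NeZero ((p ^ 2 - 1 : ℕ) : Qb) := ⟨Nat.cast_ne_zero.2 hnz⟩
  obtain ⟨ξ, hξ⟩ := HasEnoughRootsOfUnity.exists_primitiveRoot Qb (p ^ 2 - 1)
  obtain ⟨s, hs, hsπ⟩ := P.theta_surj hm0 hπ hξ.pow_eq_one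
  have hsξ : s π / π = ξ := by rw [hsπ, mul_div_cancel_right₀ _ hπ0]
  have hξte : Te p ξ := Or.inr ⟨_, hm0, hξ.pow_eq_one⟩
  have hξbl := P.te_Bl hξte
  -- the determinant
  have hsq : p ^ 2 - 1 = (p + 1) * (p - 1) := by
    obtain ⟨q, rfl⟩ : ∃ q, p = q + 1 := ⟨p - 1, by omega⟩
    rw [Nat.add_sub_cancel, Nat.sub_eq_iff_eq_add (Nat.one_le_pow _ _ (by omega))]
    ring
  have hπ' : (π ^ (p + 1)) ^ (p - 1) = p := by rw [← pow_mul, ← hsq, hπ]
  have h1 := theta_eq_x P C hπ' hs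
  rw [map_pow, ← div_pow, hsξ, P.rsd_pow hξbl] at h1
  have h2 : τ ⟨a s, hal s hs⟩ ^ (p + 1) = ((x s).val : IsLocalRing.ResidueField A) := by
    rw [← map_pow, ← map_natCast τ]
    congr 1
    apply Subtype.ext
    refine (hdet s hs).trans ?_
    exact (map_natCast (KF S).subtype _).symm
  rw [hτ s hs, hsξ, ← pow_mul, ← h1] at h2
  have h3 : ξ ^ (m * (p + 1)) = ξ ^ (p + 1) := by
    refine P.te_unique hm0 (by rw [← pow_mul, mul_comm, pow_mul, hξ.pow_eq_one, one_pow])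
      (by rw [← pow_mul, mul_comm, pow_mul, hξ.pow_eq_one, one_pow]) ?_
    rw [← P.rsd_eq_iff (P.te_Bl (P.te_pow hξte _)) (P.te_Bl (P.te_pow hξte _)), P.rsd_pow hξbl,
      P.rsd_pow hξbl, h2]
  have h4 : ξ ^ ((m - 1) * (p + 1)) = 1 := by
    have h5 : m * (p + 1) = (m - 1) * (p + 1) + (p + 1) := by
      obtain ⟨q, rfl⟩ : ∃ q, m = q + 1 := ⟨m - 1, by omega⟩
      rw [Nat.add_sub_cancel]
      ring
    rw [h5, pow_add] at h3
    exact mul_right_cancel₀ (pow_ne_zero _ (hξ.ne_zero hnz)) (by rw [one_mul]; exact h3)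
  exact hξ.dvd_of_pow_eq_one _ h4

end Fermat.Agent.H18S
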