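import Fermat.Agent.TW.LH7
import Fermat.Agent.TW.Clifford

/-!
# Wild inertia acts trivially on an irreducible flat residual representation
-/

set_option autoImplicit false
set_option linter.unusedSectionVars false

namespace Fermat.Agent.H18S

open Matrix Fermat.Agent.CC Fermat.Agent.TW NVal

/-- action of inertia on `k²` -/
noncomputable def actK {k : Type*} [Field k] (A : ValuationSubring Qb) (rb : GQ →* Mt k) :
    A.inertiaSubgroupIn ℚ →* AddMonoid.End (Fin 2 → k) where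
  toFun σ := (Matrix.mulVecLin (rb σ)).toAddMonoidHom
  map_one' := by
    ext v : 1
    change (rb 1).mulVec v = v
    rw [map_one, Matrix.one_mulVec]
  map_mul' σ τ := by
    ext v : 1
    change (rb (σ * τ)).mulVec v = (rb σ).mulVec ((rb τ).mulVec v)
    rw [map_mul, Matrix.mulVec_mulVec]

theorem actK_apply {k : Type*} [Field k] {A : ValuationSubring Qb} {rb : GQ →* Mt k}
    (σ : A.inertiaSubgroupIn ℚ) (v : Fin 2 → k) : actK A rb σ v = (rb σ).mulVec v := rfl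

/-- elements acting trivially on all the residues of `σ y / y` -/
def Wd (w : Qb → ℝ) (s : GQ) : Prop := ∀ y : Qb, y ≠ 0 → Bs w (w y) (s y - y)

variable {A : ValuationSubring Qb} {p : ℕ} {w : Qb → ℝ}

theorem Wd.conj (P : PL p A w) {g s : GQ} (hg : g ∈ A.decompositionSubgroup ℚ) (hs : Wd w s) :
    Wd w (g⁻¹ * s * g) := by
  intro y hy
  have h1 := hs (g y) ((map_ne_zero g).2 hy)
  rw [P.nv.w_smul hg] at h1
  have h2 : (g⁻¹ * s * g) y - y = g⁻¹ (s (g y) - g y) := by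
    rw [AlgEquiv.mul_apply, AlgEquiv.mul_apply, map_sub]
    congr 1
    exact (g.symm_apply_apply y).symm
  rw [h2, Bs_smul P.nv (inv_mem hg)]
  exact h1

theorem bl_div_self (P : PL p A w) {s : GQ} (hs : s ∈ A.inertiaSubgroupIn ℚ) {y : Qb}
    (hy : y ≠ 0) : Bl w 0 (s y / y) := by
  right
  rw [P.nv.w_div ((map_ne_zero s).2 hy) hy, P.nv.w_smul (inertia_le_decomposition A hs), sub_self]

theorem rsd_div_mul (P : PL p A w) {s t : GQ} (hs : s ∈ A.inertiaSubgroupIn ℚ)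
    (ht : t ∈ A.inertiaSubgroupIn ℚ) {y : Qb} (hy : y ≠ 0) :
    rsd A ((s * t) y / y) = rsd A (s y / y) * rsd A (t y / y) := by
  have h1 : (s * t) y / y = s (t y / y) * (s y / y) := by
    rw [AlgEquiv.mul_apply, map_div₀]
    have : s y ≠ 0 := (map_ne_zero s).2 hy
    field_simp
  have ht' := bl_div_self P ht hy
  rw [h1, P.rsd_mul ((P.nv.Bl_smul (inertia_le_decomposition A hs)).2 ht') (bl_div_self P hs hy),
    P.rsd_inertia hs ht', mul_comm]

theorem rsd_div_ne (P : PL p A w) {s : GQ} (hs : s ∈ A.inertiaSubgroupIn ℚ) {y : Qb}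
    (hy : y ≠ 0) : rsd A (s y / y) ≠ 0 := by
  intro h0
  have h1 := rsd_div_mul P hs (inv_mem hs) hy
  rw [mul_inv_cancel, AlgEquiv.one_apply, div_self hy, P.rsd_one, h0, zero_mul] at h1
  exact one_ne_zero h1

/-- commutators in inertia are wild -/
theorem Wd.comm (P : PL p A w) {s t c : GQ} (hs : s ∈ A.inertiaSubgroupIn ℚ)
    (ht : t ∈ A.inertiaSubgroupIn ℚ) (hc : c ∈ A.inertiaSubgroupIn ℚ) (h : t * s * c = s * t) :
    Wd w c := by
  intro y hy
  have h1 := rsd_div_mul P (mul_mem ht hs) hc hy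
  rw [h, rsd_div_mul P hs ht hy, rsd_div_mul P ht hs hy, mul_comm (rsd A (t y / y))] at h1
  have h2 : rsd A (c y / y) = 1 :=
    (mul_eq_left₀ (mul_ne_zero (rsd_div_ne P hs hy) (rsd_div_ne P ht hy))).1 h1.symm
  rw [← P.rsd_one, P.rsd_eq_iff (bl_div_self P hc hy) P.nv.one] at h2
  have h3 := P.nv.Bs_mul' h2 (Or.inr (le_refl (w y)))
  rw [zero_add, sub_mul, div_mul_cancel₀ _ hy, one_mul] at h3
  exact h3

section fixed

variable {M : Type*} [AddCommGroup M] {act : A.inertiaSubgroupIn ℚ →* AddMonoid.End M}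
  {H : Subalgebra (RI A) (M → Qb)}

/-- a point of maximal distance is fixed by wild inertia -/
theorem exists_wild_fixed [Finite M] [Nontrivial M] (hH : LH A act H) (P : PL p A w) :
    ∃ z : M, z ≠ 0 ∧ ∀ s (hs : s ∈ A.inertiaSubgroupIn ℚ), Wd w s → act ⟨s, hs⟩ z = z := by
  have h0 : ∀ x : {x : M // x ≠ 0}, ∃ r, TD w H r x.1 ∧
      ∃ φ ∈ H, φ x.1 ≠ φ 0 ∧ w (φ x.1 - φ 0) = r := fun x => hH.exists_td P x.2
  choose R hR hR' using h0
  obtain ⟨z0, hz0⟩ := exists_ne (0 : M)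
  have hne : Nonempty {x : M // x ≠ 0} := ⟨⟨z0, hz0⟩⟩
  obtain ⟨z, hz⟩ := Finite.exists_max R
  refine ⟨z.1, z.2, fun s hs hw => ?_⟩
  by_contra hne
  have hne' : act ⟨s, hs⟩ z.1 - z.1 ≠ 0 := sub_ne_zero.2 hne
  have h1 : TDS w H (R z) (act ⟨s, hs⟩ z.1 - z.1) := by
    refine TDS.of_trans hH P z.1 fun φ hφ => ?_
    rw [add_sub_cancel, hH.equiv φ hφ]
    change Bs w (R z) (s (φ z.1) - φ z.1)
    have e1 : s (φ 0) = φ 0 := by
      have := hH.equiv φ hφ ⟨s, hs⟩ 0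
      rw [map_zero] at this
      exact this.symm
    have e2 : s (φ z.1) - φ z.1 = s (φ z.1 - φ 0) - (φ z.1 - φ 0) := by
      rw [map_sub, e1]
      ring
    rw [e2]
    by_cases h3 : φ z.1 - φ 0 = 0
    · rw [h3, map_zero, sub_zero]
      exact Bs_zero _
    · exact Bs_mono ((hR z φ hφ).resolve_left h3) (hw _ h3)
  obtain ⟨φ, hφ, h2, h3⟩ := hR' ⟨_, hne'⟩
  have h4 := (h1 φ hφ).resolve_left (sub_ne_zero.2 h2)
  rw [h3] at h4
  exact absurd h4 (not_lt.2 (hz _))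

end fixed

section k

variable {k : Type*} [Field k] {rb : GQ →* Mt k}

theorem rb_conj (g s : GQ) (v : Fin 2 → k) :
    rb s *ᵥ (rb g *ᵥ v) = rb g *ᵥ (rb (g⁻¹ * s * g) *ᵥ v) := by
  rw [Matrix.mulVec_mulVec, Matrix.mulVec_mulVec, ← map_mul, ← map_mul]
  congr 2
  group

/-- **wild inertia acts trivially** -/
theorem rb_wild [Finite k] (P : PL p A w)
    (hirr : ∀ v : Fin 2 → k, v ≠ 0 → ∃ g ∈ A.decompositionSubgroup ℚ, ∀ c : k,
      (rb g).mulVec v ≠ c • v)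
    (hLH : HasLH A (actK A rb)) {s : GQ} (hs : s ∈ A.inertiaSubgroupIn ℚ) (hw : Wd w s) :
    rb s = 1 := by
  obtain ⟨H, hH⟩ := hLH
  obtain ⟨z, hz0, hz⟩ := exists_wild_fixed hH P
  obtain ⟨g, hg, hgz⟩ := hirr z hz0
  have h1 : rb s *ᵥ z = (1 : k) • z := by rw [one_smul]; exact hz s hs hw
  have h2 : rb s *ᵥ (rb g *ᵥ z) = (1 : k) • (rb g *ᵥ z) := by
    have h4 : g⁻¹ * s * g ∈ A.inertiaSubgroupIn ℚ := by
      have := TW.inertia_conj_mem (inv_mem hg) hs
      rwa [inv_inv] at this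
    rw [rb_conj, one_smul]
    congr 1
    exact hz _ h4 (hw.conj P hg)
  rw [eq_scalar hz0 hgz h1 h2, one_smul]

theorem rb_comm [Finite k] (P : PL p A w)
    (hirr : ∀ v : Fin 2 → k, v ≠ 0 → ∃ g ∈ A.decompositionSubgroup ℚ, ∀ c : k,
      (rb g).mulVec v ≠ c • v)
    (hLH : HasLH A (actK A rb)) {s t : GQ} (hs : s ∈ A.inertiaSubgroupIn ℚ)
    (ht : t ∈ A.inertiaSubgroupIn ℚ) : rb s * rb t = rb t * rb s := by
  have hc : (t * s)⁻¹ * (s * t) ∈ A.inertiaSubgroupIn ℚ :=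
    mul_mem (inv_mem (mul_mem ht hs)) (mul_mem hs ht)
  have h1 := rb_wild P hirr hLH hc (Wd.comm P hs ht hc (by group))
  rw [← map_mul, ← map_mul]
  have h2 : s * t = (t * s) * ((t * s)⁻¹ * (s * t)) := by group
  rw [h2, map_mul, h1, mul_one]

end k

end Fermat.Agent.H18S
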